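import Fermat.Agent.MF.Eigen

/-!
# Formal eigensystems with prescribed values at the primes
-/

set_option autoImplicit false

noncomputable section

namespace FermatAgent.LT.Formal

variable {R : Type*} [CommRing R] (e x : ℕ → R)

/-- The values at the powers of a prime. -/
def powVal (ℓ : ℕ) : ℕ → R
  | 0 => 1
  | 1 => x ℓ
  | r + 2 => x ℓ * powVal ℓ (r + 1) - e ℓ * powVal ℓ r

/-- The extension of the values at the primes. -/
def extend (n : ℕ) : R := if n = 0 then 0 else n.factorization.prod fun ℓ r => powVal e x ℓ r

lemma extend_prime_pow {ℓ : ℕ} (hℓ : ℓ.Prime) (r : ℕ) : extend e x (ℓ ^ r) = powVal e x ℓ r := by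
  rw [extend, if_neg (pow_ne_zero r hℓ.ne_zero), hℓ.factorization_pow,
    Finsupp.prod_single_index (by simp [powVal])]

/-- The extension at a prime. -/
lemma extend_prime {ℓ : ℕ} (hℓ : ℓ.Prime) : extend e x ℓ = x ℓ := by
  simpa [powVal] using extend_prime_pow e x hℓ 1

/-- The extension satisfies the recursion. -/
theorem extend_isRecursive : FormalHecke.IsRecursive e (extend e x) := by
  refine ⟨by simp [extend], fun m n hmn => ?_, fun ℓ r hℓ => ?_⟩
  · rcases Nat.eq_zero_or_pos m with rfl | hm
    · simp [extend]
    rcases Nat.eq_zero_or_pos n with rfl | hn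
    · simp [extend]
    simp only [extend, if_neg hm.ne', if_neg hn.ne', if_neg (Nat.mul_ne_zero hm.ne' hn.ne')]
    rw [Nat.factorization_mul hm.ne' hn.ne',
      Finsupp.prod_add_index_of_disjoint (by
        simpa [Nat.support_factorization] using hmn.disjoint_primeFactors)]
  · rw [extend_prime e x hℓ, extend_prime_pow e x hℓ, extend_prime_pow e x hℓ,
      extend_prime_pow e x hℓ, powVal]

/-- The extension is an eigensystem. -/
theorem extend_isEigensystem : FormalHecke.IsEigensystem e (extend e x) :=
  FermatAgent.MF.IsRecursive.isEigensystem (extend_isRecursive e x) (by simp [extend])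

end FermatAgent.LT.Formal
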