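import Fermat.Agent.LT.Formal.Extend
import Fermat.Agent.Assembly.Chain
import Fermat.Agent.S23
import Fermat.Agent.S49
import Fermat.Agent.MF.Lattice

/-!
# The eigensystem with character `χ₋₃` of a semistable curve

A semistable curve is modular of squarefree level by a form with integral coefficients, which are
congruent modulo three to the eigensystem with character `χ₋₃` having the same values at the
primes.
-/

set_option autoImplicit false

noncomputable section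

open WeierstrassCurve CuspForm ModularFormClass EisensteinWeightOne
open scoped WeierstrassCurve.Affine

namespace FermatAgent.LT.Formal

open Assembly (Matches)

variable {W : WeierstrassCurve ℤ}

/-- The coefficients at the primes of a matching newform of squarefree level are integers, those at
good primes outside the level the traces of the curve. -/
theorem exists_prime_values (hΔ : W.Δ ≠ 0) (hW : W.IsSemistableModel) {N : ℕ} [NeZero N]
    (hN : Squarefree N) {g : CuspForm (CongruenceSubgroup.Gamma0 N) 2} (hg : g.IsNewform)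
    (hm : Matches W N g) :
    ∃ x : ℕ → ℤ, ∀ ℓ : ℕ, ℓ.Prime → (x ℓ : ℂ) = qCoeff g ℓ ∧
      (W.IsGoodPrimeFor ℓ → ¬ ℓ ∣ N → x ℓ = W.apOfModel ℓ) := by
  classical
  have key : ∀ ℓ : ℕ, ∃ z : ℤ, ℓ.Prime → (z : ℂ) = qCoeff g ℓ ∧
      (W.IsGoodPrimeFor ℓ → ¬ ℓ ∣ N → z = W.apOfModel ℓ) := fun ℓ => by
    by_cases hℓ : ℓ.Prime
    swap
    · exact ⟨0, fun h => absurd h hℓ⟩
    by_cases hℓN : ℓ ∣ N
    · have h2 := (HM.newformBadPrimeCoeff N g hg ℓ hℓ hℓN).1 fun h =>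
        Nat.squarefree_iff_prime_squarefree.1 hN ℓ hℓ (by rwa [← pow_two])
      rcases sq_eq_one_iff.mp h2 with h | h
      · exact ⟨1, fun _ => ⟨by rw [h]; simp, fun _ hn => absurd hℓN hn⟩⟩
      · exact ⟨-1, fun _ => ⟨by rw [h]; simp, fun _ hn => absurd hℓN hn⟩⟩
    by_cases hgood : W.IsGoodPrimeFor ℓ
    · refine ⟨W.apOfModel ℓ, fun _ => ⟨?_, fun _ _ => rfl⟩⟩
      exact (hm.qCoeff_eq hΔ hℓ hℓN (W.apOfModel ℓ) fun p hp hℓp A hA σ hσ => by
        have := Fact.mk hp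
        exact EC.galoisTrace_frobenius_eq_apOfModel W hℓ hgood hℓp hA hσ).symm
    · refine ⟨Assembly.multSign W ℓ * (ℓ + 1), fun _ => ⟨?_, fun h => absurd h hgood⟩⟩
      exact (hm.qCoeff_eq hΔ hℓ hℓN _ fun p hp hℓp A hA σ hσ =>
        (Assembly.multFrobenius W p ℓ hΔ hW hp hℓ hℓp hgood).2 A hA σ hσ).symm
  choose x hx using key
  exact ⟨x, fun ℓ hℓ => hx ℓ hℓ⟩

/-- **The lattice-realised eigensystem with character `χ₋₃`.** -/
theorem exists_latticeRealized (hΔ : W.Δ ≠ 0) (hW : W.IsSemistableModel) :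
    ∃ (N : ℕ) (_ : NeZero N) (a : ℕ → ℤ),
      CuspForm.HasIntegralBasis N ∧
      FormalHecke.IsEigensystem
        (fun ℓ => if ℓ ∣ N then 0 else ((chiNegThree ℓ : ℤ) : ℤ)) a ∧
      CuspForm.IsLatticeRealized N a ∧
      (∀ q : ℕ, q.Prime → q ≠ 3 → ¬ q ^ 3 ∣ N) ∧
      ∀ ℓ : ℕ, ℓ.Prime → W.IsGoodPrimeFor ℓ → ¬ ℓ ∣ N → ℓ ≠ 3 →
        (3 : ℤ) ∣ (a ℓ - W.apOfModel ℓ) := by
  classical
  obtain ⟨M, hM0, hM, hq, f, hf, hfa⟩ := Assembly.exactConductor hΔ hW
  have : NeZero M := ⟨hM0.ne'⟩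
  obtain ⟨N, g, hNM, hN0, hg, hval⟩ := HM.exists_newform hf
  have : NeZero N := ⟨hN0.ne'⟩
  have hN : Squarefree N := hM.squarefree_of_dvd hNM
  have hm : Matches W N g := ⟨hg.1, M.primeFactors, fun ℓ hℓ hℓS hgood _ => by
    have hℓM : ¬ ℓ ∣ M := fun hd => hℓS (Nat.mem_primeFactors.2 ⟨hℓ, hd, hM0.ne'⟩)
    rw [hval ℓ hℓ hℓM, hfa ℓ hℓ hgood hℓM]⟩
  obtain ⟨x, hx⟩ := exists_prime_values hΔ hW hN hg hm
  set e : ℕ → ℤ := fun ℓ => if ℓ ∣ N then 0 else ((chiNegThree ℓ : ℤ) : ℤ) with he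
  set a := extend e x with ha
  have hrec := extend_isRecursive e x
  refine ⟨N, inferInstance, a,
    (MF.hasIntegralBasis_iff N).mpr (Fermat.Agent.S23.result N), extend_isEigensystem e x, ?_,
    fun q hq' _ h => Nat.squarefree_iff_prime_squarefree.1 hN q hq'
      ((by rw [← pow_two] : q * q ∣ q ^ 2) |>.trans ((pow_dvd_pow q (by
        norm_num : 2 ≤ 3)).trans h)),
    fun ℓ hℓ hgood hℓN _ => ?_⟩
  swap
  · rw [ha, extend_prime e x hℓ, (hx ℓ hℓ).2 hgood hℓN, sub_self]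
    exact dvd_zero _
  have key : ∀ n : ℕ, ∃ z : ℤ, (z : ℂ) = qCoeff g n ∧ (z : ZMod 3) = (a n : ZMod 3) := by
    intro n
    induction n using Nat.recOnPosPrimePosCoprime with
    | zero => exact ⟨0, by rw [MF.qCoeff_index_zero]; simp, by simp [ha, extend]⟩
    | one => exact ⟨1, by rw [hg.1.qCoeff_one]; simp, by rw [ha, hrec.1]⟩
    | coprime m k _ _ hmk ihm ihk =>
      obtain ⟨z, hz, hz'⟩ := ihm
      obtain ⟨w, hw, hw'⟩ := ihk
      exact ⟨z * w, by rw [hg.1.qCoeff_mul_of_coprime m k hmk, ← hz, ← hw]; push_cast; rfl,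
        by rw [ha, hrec.2.1 m k hmk]; push_cast; rw [hz', hw', ha]⟩
    | prime_pow ℓ r hℓ hr =>
      clear hr
      induction r using Nat.twoStepInduction with
      | zero => exact ⟨1, by rw [pow_zero, hg.1.qCoeff_one]; simp, by rw [pow_zero, ha, hrec.1]⟩
      | one => exact ⟨x ℓ, by rw [pow_one]; exact (hx ℓ hℓ).1, by
        rw [pow_one, ha, extend_prime e x hℓ]⟩
      | more r ih₁ ih₂ =>
        obtain ⟨z₀, hz₀, hz₀'⟩ := ih₁
        obtain ⟨z₁, hz₁, hz₁'⟩ := ih₂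
        refine ⟨x ℓ * z₁ - (if ℓ ∣ N then 0 else (ℓ : ℤ)) * z₀, ?_, ?_⟩
        · by_cases hℓN : ℓ ∣ N
          · rw [hg.1.qCoeff_prime_pow_of_dvd ℓ r hℓ hℓN, ← hz₁, ← (hx ℓ hℓ).1, if_pos hℓN]
            push_cast; ring
          · rw [hg.1.qCoeff_prime_pow_of_not_dvd ℓ r hℓ hℓN, ← hz₁, ← hz₀, ← (hx ℓ hℓ).1,
              if_neg hℓN]
            push_cast; ring
        · rw [ha, hrec.2.2 ℓ r hℓ, extend_prime e x hℓ]
          push_cast
          rw [hz₁', hz₀', ha, he]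
          by_cases hℓN : ℓ ∣ N <;> simp [hℓN, Fermat.Agent.S49.chiNegThree_zmod]
  choose af haf haf' using key
  refine ⟨g, fun n => Subring.mem_bot.mpr ⟨af n, haf n⟩, af, haf, fun n => ?_⟩
  rw [show (3 : ℤ) = ((3 : ℕ) : ℤ) from rfl, ← ZMod.intCast_zmod_eq_zero_iff_dvd, Int.cast_sub,
    Fermat.Agent.S49.bridgeProduct_coeff_zmod, haf' n, sub_self]

end FermatAgent.LT.Formal
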